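/-
S33lib / Conn / Cyclo (helper4): the valuation of `1 - η` for a nontrivial `p`-th root of unity
`η ∈ ℚ̄` at a valuation subring `A` of `ℚ̄`:  `v(p) ≤ v(1 - η) ^ (p - 1)`.
-/
import Mathlib
import Fermat.Agent.S19lib.G.RootsUnity

set_option autoImplicit false

noncomputable section

namespace Fermat.Agent.S33lib.Conn

local notation "Qb" => AlgebraicClosure ℚ

variable (A : ValuationSubring Qb)

/-- a product of `n` elements of valuation `≤ c` has valuation `≤ c ^ n` -/
theorem valuation_prod_le_pow {ι : Type*} (s : Finset ι) (f : ι → Qb) (c : A.ValueGroup)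
    (h : ∀ i ∈ s, A.valuation (f i) ≤ c) :
    A.valuation (∏ i ∈ s, f i) ≤ c ^ s.card := by
  classical
  induction s using Finset.induction_on with
  | empty => simp
  | insert a s ha ih =>
    rw [Finset.prod_insert ha, Finset.card_insert_of_notMem ha, map_mul, pow_succ, mul_comm]
    exact mul_le_mul' (ih fun i hi => h i (Finset.mem_insert_of_mem hi))
      (h a (Finset.mem_insert_self a s))

/-- `v(p) ≤ v(1 - η) ^ (p - 1)` for a nontrivial `p`-th root of unity `η` -/
theorem valuation_prime_le_pow {p : ℕ} (hp : p.Prime) {η : Qb} (hη : η ^ p = 1) (hη1 : η ≠ 1) :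
    A.valuation ((p : ℕ) : Qb) ≤ A.valuation (1 - η) ^ (p - 1) := by
  have : Fact p.Prime := ⟨hp⟩
  have hord : orderOf η = p := orderOf_eq_prime hη hη1
  have hprim : IsPrimitiveRoot η p := hord ▸ IsPrimitiveRoot.orderOf η
  obtain ⟨n, rfl⟩ : ∃ n, p = n + 1 := ⟨p - 1, (Nat.succ_pred_eq_of_pos hp.pos).symm⟩
  have hprod := hprim.prod_one_sub_pow_eq_order
  have hηA : η ∈ A := Fermat.Agent.S19lib.G.mem_of_pow_eq_one (A := A) hp.pos hη
  have hfac : ∀ k ∈ Finset.range n, A.valuation (1 - η ^ (k + 1)) ≤ A.valuation (1 - η) := by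
    intro k _
    rw [← mul_neg_geom_sum η (k + 1), map_mul]
    have h1 : A.valuation (∑ i ∈ Finset.range (k + 1), η ^ i) ≤ 1 := by
      rw [A.valuation_le_one_iff]
      exact sum_mem fun i _ => pow_mem hηA i
    calc A.valuation (1 - η) * A.valuation (∑ i ∈ Finset.range (k + 1), η ^ i)
        ≤ A.valuation (1 - η) * 1 := mul_le_mul' le_rfl h1
      _ = A.valuation (1 - η) := mul_one _
  have h2 := valuation_prod_le_pow A (Finset.range n) (fun k => 1 - η ^ (k + 1)) _ hfac
  rw [hprod, Finset.card_range] at h2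
  have h3 : (((n + 1 : ℕ) : ℕ) : Qb) = (n : Qb) + 1 := by push_cast; ring
  rw [h3, Nat.add_sub_cancel]
  exact h2

end Fermat.Agent.S33lib.Conn

end
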