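/-
S33lib / Conn / Descent (helper4): unramified descent for inertia-equivariant functions.

`A` a valuation subring of `ℚ̄` over `p`, `I = IA A` its inertia group, `Γ` an `I`-stable subgroup of a
`G_ℚ`-module.  A function `φ : Γ → ℚ̄` is *equivariant* if `φ (σ x) = σ (φ x)` for `σ ∈ I`.

* `linearIndependent_of_eqv` : equivariant functions which are linearly independent over the fixed
  field `Kfix A` of inertia are linearly independent over `ℚ̄`;
* `exists_eq_prime_mul` : **(K3)** an equivariant function which is an `𝔪_A`-combination of elements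
  of an `A0`-module `H` of equivariant functions is `p` times an element of `H`
  (`𝔪_A ∩ Kfix A = p · A0`: inertia-fixed elements are unramified).
-/
import Mathlib
import Fermat.Agent.S19lib.Iface
import Fermat.Agent.S19lib.D.Comp
import Fermat.Agent.S36lib.Desc.Kfix

set_option autoImplicit false
set_option linter.unusedSectionVars false

noncomputable section

namespace Fermat.Agent.S33lib.Conn

open Fermat.Agent.S19lib Fermat.Agent.S36lib.Desc

local notation "Qb" => AlgebraicClosure ℚ
local notation "GQ" => (AlgebraicClosure ℚ ≃ₐ[ℚ] AlgebraicClosure ℚ)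

variable {A : ValuationSubring Qb}
variable {J : Type} [AddCommGroup J] [DistribMulAction GQ J] {Γ : AddSubgroup J}

/-- `φ` is equivariant under the inertia group -/
def IsEqv (A : ValuationSubring Qb) (Γ : AddSubgroup J) (φ : Γ → Qb) : Prop :=
  ∀ σ ∈ IA A, ∀ x y : Γ, (y : J) = σ • (x : J) → φ y = σ (φ x)

/-- `Γ` is stable under the inertia group -/
def IStable (A : ValuationSubring Qb) (Γ : AddSubgroup J) : Prop :=
  ∀ σ ∈ IA A, ∀ x ∈ Γ, σ • x ∈ Γ

theorem mem_A0_of_mem_Kfix {c : Qb} (hc : c ∈ Kfix A) (hA : c ∈ A) : c ∈ A0 A :=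
  ⟨hA, (mem_Kfix A).1 hc⟩

/-- applying `σ ∈ I` to a linear relation between equivariant functions -/
theorem sum_apply_eqv {ι : Type} [Fintype ι] (hΓ : IStable A Γ) {ψ : ι → Γ → Qb}
    (hψ : ∀ i, IsEqv A Γ (ψ i)) {c : ι → Qb} (hc : ∑ i, c i • ψ i = 0) {σ : GQ} (hσ : σ ∈ IA A) :
    ∑ i, (σ (c i)) • ψ i = 0 := by
  funext y
  have hσ' : σ⁻¹ ∈ IA A := (IA A).inv_mem hσ
  let x : Γ := ⟨σ⁻¹ • (y : J), hΓ σ⁻¹ hσ' _ y.2⟩
  have hxy : (y : J) = σ • (x : J) := by
    show (y : J) = σ • (σ⁻¹ • (y : J))
    rw [smul_inv_smul]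
  have h0 := congrFun hc x
  rw [Finset.sum_apply, Pi.zero_apply] at h0
  rw [Finset.sum_apply, Pi.zero_apply]
  have h1 : ∀ i, (σ (c i) • ψ i) y = σ ((c i • ψ i) x) := by
    intro i
    rw [Pi.smul_apply, Pi.smul_apply, smul_eq_mul, smul_eq_mul, map_mul, hψ i σ hσ x y hxy]
  rw [Finset.sum_congr rfl fun i _ => h1 i, ← map_sum, h0, map_zero]

/-- **descent of linear independence** -/
theorem linearIndependent_of_eqv {ι : Type} [Fintype ι] (hΓ : IStable A Γ) (ψ : ι → Γ → Qb)
    (hψ : ∀ i, IsEqv A Γ (ψ i)) (hli : LinearIndependent (Kfix A) ψ) :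
    LinearIndependent Qb ψ := by
  classical
  rw [Fintype.linearIndependent_iff]
  -- strong induction on the size of the support
  suffices H : ∀ n : ℕ, ∀ c : ι → Qb, (Finset.univ.filter fun i => c i ≠ 0).card = n →
      ∑ i, c i • ψ i = 0 → ∀ i, c i = 0 from fun c hc => H _ c rfl hc
  intro n
  induction n using Nat.strong_induction_on with
  | _ n ih =>
    intro c hn hc
    by_contra hne
    push Not at hne
    obtain ⟨k₀, hk₀⟩ := hne
    -- normalise
    set c' : ι → Qb := fun i => c i / c k₀ with hc'def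
    have hc' : ∑ i, c' i • ψ i = 0 := by
      have : ∑ i, c' i • ψ i = (c k₀)⁻¹ • ∑ i, c i • ψ i := by
        rw [Finset.smul_sum]
        refine Finset.sum_congr rfl fun i _ => ?_
        rw [smul_smul, hc'def]
        congr 1
        show c i / c k₀ = (c k₀)⁻¹ * c i
        rw [div_eq_mul_inv, mul_comm]
      rw [this, hc, smul_zero]
    have hc'k : c' k₀ = 1 := div_self hk₀
    have hfix : ∀ σ ∈ IA A, ∀ i, σ (c' i) = c' i := by
      intro σ hσ
      have h1 := sum_apply_eqv hΓ hψ hc' hσ
      have hd : ∑ i, (σ (c' i) - c' i) • ψ i = 0 := by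
        have : ∑ i, (σ (c' i) - c' i) • ψ i = ∑ i, σ (c' i) • ψ i - ∑ i, c' i • ψ i := by
          rw [← Finset.sum_sub_distrib]
          exact Finset.sum_congr rfl fun i _ => sub_smul _ _ _
        rw [this, h1, hc', sub_zero]
      have hsub : (Finset.univ.filter fun i => σ (c' i) - c' i ≠ 0) ⊆
          (Finset.univ.filter fun i => c i ≠ 0).erase k₀ := by
        intro i hi
        rw [Finset.mem_filter] at hi
        rw [Finset.mem_erase, Finset.mem_filter]
        refine ⟨?_, Finset.mem_univ _, ?_⟩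
        · rintro rfl
          apply hi.2
          rw [hc'k, map_one, sub_self]
        · intro h0
          apply hi.2
          rw [hc'def]
          simp only [h0, zero_div, map_zero, sub_self]
      have hlt : (Finset.univ.filter fun i => σ (c' i) - c' i ≠ 0).card < n := by
        have hmem : k₀ ∈ Finset.univ.filter fun i => c i ≠ 0 := by
          rw [Finset.mem_filter]; exact ⟨Finset.mem_univ _, hk₀⟩
        calc _ ≤ ((Finset.univ.filter fun i => c i ≠ 0).erase k₀).card := Finset.card_le_card hsub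
          _ < (Finset.univ.filter fun i => c i ≠ 0).card := Finset.card_erase_lt_of_mem hmem
          _ = n := hn
      intro i
      have := ih _ hlt (fun i => σ (c' i) - c' i) rfl hd i
      exact sub_eq_zero.1 this
    -- the coefficients lie in the fixed field
    let r : ι → Kfix A := fun i => ⟨c' i, (mem_Kfix A).2 fun σ hσ => hfix σ hσ i⟩
    have hr : ∑ i, r i • ψ i = 0 := by
      rw [← hc']
      exact Finset.sum_congr rfl fun i _ => rfl
    have h1 := (Fintype.linearIndependent_iff.1 hli) r hr k₀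
    have h2 : (r k₀ : Qb) = 1 := hc'k
    rw [h1] at h2
    exact zero_ne_one h2

/-- an inertia-fixed element of `𝔪_A` is `p` times an element of `A0` -/
theorem div_prime_mem_A0 {p : ℕ} (hp : p.Prime) (hA : A.LiesOverPrime p) {c : Qb}
    (hfix : ∀ σ ∈ IA A, σ c = c) (hc : A.valuation c < 1) : c / (p : Qb) ∈ A0 A := by
  have hcA : c ∈ A := (A.valuation_le_one_iff c).1 hc.le
  have hle := Fermat.Agent.S19lib.D.valuation_le_of_mem_A0 hp A hA (ε := c) ⟨hcA, hfix⟩ hc
  have hp0 : A.valuation ((p : ℕ) : Qb) ≠ 0 := by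
    rw [Valuation.ne_zero_iff]; exact_mod_cast hp.ne_zero
  refine ⟨?_, fun σ hσ => ?_⟩
  · rw [← A.valuation_le_one_iff, map_div₀]
    exact div_le_one_of_le₀ hle zero_le
  · rw [map_div₀, hfix σ hσ, map_natCast]

/-- finite `A0`-combinations of elements of an `A0`-module of functions -/
theorem sum_smul_mem {ι : Type} [Fintype ι] (H : Set (Γ → Qb))
    (hzero : (fun _ => (0 : Qb)) ∈ H)
    (hadd : ∀ φ ∈ H, ∀ ψ ∈ H, (fun x => φ x + ψ x) ∈ H)
    (hsmul : ∀ r ∈ A0 A, ∀ φ ∈ H, (fun x => r * φ x) ∈ H)
    (e : ι → Qb) (he : ∀ i, e i ∈ A0 A) (ψ : ι → Γ → Qb) (hψ : ∀ i, ψ i ∈ H) :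
    (fun x => ∑ i, e i * ψ i x) ∈ H := by
  classical
  suffices h : ∀ s : Finset ι, (fun x => ∑ i ∈ s, e i * ψ i x) ∈ H from h Finset.univ
  intro s
  induction s using Finset.induction_on with
  | empty => simpa using hzero
  | insert a s ha ih =>
    have h1 := hadd _ (hsmul (e a) (he a) (ψ a) (hψ a)) _ ih
    have h2 : (fun x => ∑ i ∈ insert a s, e i * ψ i x)
        = fun x => e a * ψ a x + ∑ i ∈ s, e i * ψ i x := by
      funext x
      rw [Finset.sum_insert ha]
    rw [h2]
    exact h1

/-- **(K3)**: an equivariant `𝔪_A`-combination of elements of an `A0`-module `H` of equivariant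
functions is `p` times an element of `H` -/
theorem exists_eq_prime_mul {p : ℕ} (hp : p.Prime) (hA : A.LiesOverPrime p) (hΓ : IStable A Γ)
    (H : Set (Γ → Qb)) (hzero : (fun _ => (0 : Qb)) ∈ H)
    (hadd : ∀ φ ∈ H, ∀ ψ ∈ H, (fun x => φ x + ψ x) ∈ H)
    (hsmul : ∀ r ∈ A0 A, ∀ φ ∈ H, (fun x => r * φ x) ∈ H)
    (heqv : ∀ φ ∈ H, IsEqv A Γ φ) :
    ∀ (n : ℕ) (ι : Type) [Fintype ι], Fintype.card ι = n → ∀ (ψ : ι → Γ → Qb) (d : ι → Qb),
      (∀ i, ψ i ∈ H) → (∀ i, A.valuation (d i) < 1) →
      IsEqv A Γ (fun x => ∑ i, d i * ψ i x) →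
      ∃ θ ∈ H, ∀ x, ∑ i, d i * ψ i x = (p : Qb) * θ x := by
  classical
  intro n
  induction n using Nat.strong_induction_on with
  | _ n ih =>
    intro ι _ hcard ψ d hψ hd hΨ
    have hp0 : ((p : ℕ) : Qb) ≠ 0 := by exact_mod_cast hp.ne_zero
    by_cases hli : LinearIndependent (Kfix A) ψ
    · -- independent case: the coefficients are inertia-fixed
      have hliQ := linearIndependent_of_eqv hΓ ψ (fun i => heqv _ (hψ i)) hli
      have hfix : ∀ σ ∈ IA A, ∀ i, σ (d i) = d i := by
        intro σ hσ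
        have hrel : ∑ i, (σ (d i) - d i) • ψ i = 0 := by
          funext y
          have hσ' : σ⁻¹ ∈ IA A := (IA A).inv_mem hσ
          let x : Γ := ⟨σ⁻¹ • (y : J), hΓ σ⁻¹ hσ' _ y.2⟩
          have hxy : (y : J) = σ • (x : J) := by
            show (y : J) = σ • (σ⁻¹ • (y : J))
            rw [smul_inv_smul]
          have h1 := hΨ σ hσ x y hxy
          simp only at h1
          rw [map_sum] at h1
          rw [Finset.sum_apply, Pi.zero_apply]
          have h2 : ∀ i, ((σ (d i) - d i) • ψ i) y = σ (d i * ψ i x) - d i * ψ i y := by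
            intro i
            rw [Pi.smul_apply, smul_eq_mul, sub_mul, map_mul, heqv _ (hψ i) σ hσ x y hxy]
          rw [Finset.sum_congr rfl fun i _ => h2 i, Finset.sum_sub_distrib, ← h1, sub_self]
        intro i
        exact sub_eq_zero.1 ((Fintype.linearIndependent_iff.1 hliQ) _ hrel i)
      have he : ∀ i, d i / (p : Qb) ∈ A0 A := fun i =>
        div_prime_mem_A0 hp hA (fun σ hσ => hfix σ hσ i) (hd i)
      refine ⟨fun x => ∑ i, (d i / (p : Qb)) * ψ i x,
        sum_smul_mem H hzero hadd hsmul _ he ψ hψ, fun x => ?_⟩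
      rw [Finset.mul_sum]
      refine Finset.sum_congr rfl fun i _ => ?_
      rw [← mul_assoc, mul_div_cancel₀ _ hp0]
    · -- dependent case: eliminate one function
      rw [Fintype.not_linearIndependent_iff] at hli
      obtain ⟨r, hr, j, hj⟩ := hli
      obtain ⟨i₀, -, hmax⟩ := Finset.exists_max_image Finset.univ
        (fun i => A.valuation ((r i : Kfix A) : Qb)) ⟨j, Finset.mem_univ j⟩
      have hr0 : ((r i₀ : Kfix A) : Qb) ≠ 0 := by
        intro h0
        have h1 := hmax j (Finset.mem_univ j)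
        simp only [h0, map_zero] at h1
        have h2 : A.valuation ((r j : Kfix A) : Qb) = 0 := le_antisymm h1 zero_le
        rw [map_eq_zero] at h2
        exact hj (by exact_mod_cast h2)
      -- the coefficients `a i = r i / r i₀ ∈ A0`
      set a : ι → Qb := fun i => ((r i : Kfix A) : Qb) / ((r i₀ : Kfix A) : Qb) with hadef
      have haA0 : ∀ i, a i ∈ A0 A := by
        intro i
        refine ⟨?_, fun σ hσ => ?_⟩
        · rw [← A.valuation_le_one_iff, hadef, map_div₀]
          exact div_le_one_of_le₀ (hmax i (Finset.mem_univ i)) zero_le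
        · rw [hadef, map_div₀, (mem_Kfix A).1 (r i).2 σ hσ, (mem_Kfix A).1 (r i₀).2 σ hσ]
      have hrel : ∀ x, ∑ i, a i * ψ i x = 0 := by
        intro x
        have h1 := congrFun hr x
        rw [Finset.sum_apply, Pi.zero_apply] at h1
        have h2 : ∀ i, (r i • ψ i) x = ((r i : Kfix A) : Qb) * ψ i x := fun i => rfl
        rw [Finset.sum_congr rfl fun i _ => h2 i] at h1
        have h3 : ∑ i, a i * ψ i x
            = (((r i₀ : Kfix A) : Qb))⁻¹ * ∑ i, ((r i : Kfix A) : Qb) * ψ i x := by
          rw [Finset.mul_sum]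
          refine Finset.sum_congr rfl fun i _ => ?_
          rw [hadef]
          field_simp
        rw [h3, h1, mul_zero]
      have ha0 : a i₀ = 1 := div_self hr0
      -- the smaller family
      let ι' := {i : ι // i ≠ i₀}
      have hcard' : Fintype.card ι' < n := by
        rw [← hcard]
        exact Fintype.card_subtype_lt (x := i₀) (fun h => h rfl)
      have hsum : ∀ x, ∑ i, d i * ψ i x
          = ∑ i : ι', (d i - d i₀ * a i) * ψ i x := by
        intro x
        have h1 := Fintype.sum_eq_add_sum_subtype_ne (fun i => d i * ψ i x) i₀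
        have h2 := Fintype.sum_eq_add_sum_subtype_ne (fun i => a i * ψ i x) i₀
        rw [hrel x, ha0, one_mul] at h2
        have h3 : ψ i₀ x = - ∑ i : ι', a i * ψ i x := by
          rw [eq_neg_iff_add_eq_zero]
          exact h2.symm
        rw [h1, h3, mul_neg, Finset.mul_sum, ← Finset.sum_neg_distrib, ← Finset.sum_add_distrib]
        refine Finset.sum_congr rfl fun i _ => ?_
        ring
      have hd' : ∀ i : ι', A.valuation (d i - d i₀ * a i) < 1 := by
        intro i
        refine lt_of_le_of_lt (Valuation.map_sub _ _ _) (max_lt (hd i) ?_)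
        rw [map_mul]
        have h1 : A.valuation (a i) ≤ 1 := (A.valuation_le_one_iff _).2 (haA0 i).1
        calc A.valuation (d i₀) * A.valuation (a i) ≤ A.valuation (d i₀) * 1 :=
              mul_le_mul' le_rfl h1
          _ = A.valuation (d i₀) := mul_one _
          _ < 1 := hd i₀
      have hΨ' : IsEqv A Γ (fun x => ∑ i : ι', (d i - d i₀ * a i) * ψ i x) := by
        have : (fun x => ∑ i : ι', (d i - d i₀ * a i) * ψ i x) = fun x => ∑ i, d i * ψ i x := by
          funext x
          exact (hsum x).symm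
        rw [this]
        exact hΨ
      obtain ⟨θ, hθ, hθeq⟩ := ih _ hcard' ι' rfl (fun i => ψ i) (fun i => d i - d i₀ * a i)
        (fun i => hψ i) hd' hΨ'
      exact ⟨θ, hθ, fun x => by rw [hsum x, hθeq x]⟩

end Fermat.Agent.S33lib.Conn

end
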