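/-
S33lib / Conn / Main (helper4): **a connected Hopf order has no non-zero subquotient with trivial
inertia action** (`connStmt : ConnStmt`), `p` odd.

`K` an inertia-stable subgroup killed by `p^n`, `O` a connected `A0`-Hopf order of equivariant
functions on `K`.  Suppose `Γ'' ≤ K` is inertia-stable, `g ∈ K ∖ Γ''`, `p g ∈ Γ''` and
`σ g - g ∈ Γ''` for all `σ` in the inertia group.  For a `Γ''`-invariant `φ ∈ H` the function
`Dφ (x) = φ (x) - φ (x + g)` is equivariant, and by `Δφ ∈ H ⊗ H` and connectedness it is an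
`𝔪_A`-combination of elements of `H`; unramified descent (`exists_eq_prime_mul`) gives `Dφ = p θ`
with `θ ∈ H` again invariant.  Hence `D^k φ₀ = p^k θ_k`.  The twisted sum
`S F = ∑_{j<p} ζ^j F (j g)` (`ζ` a primitive `p`-th root of unity) satisfies
`S (D F) = (1 - ζ⁻¹) S F` and `S (p^m 1_{Γ''}) = p^m`, so `v(1 - ζ⁻¹)^k v(p)^m ≤ v(p)^k` for all
`k`; as `v(p) ≤ v(1 - ζ⁻¹)^(p-1)` and `p ≥ 3` this is absurd for large `k`.
-/
import Mathlib
import Fermat.Agent.S33lib.Iface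
import Fermat.Agent.S33lib.Conn.Cyclo
import Fermat.Agent.S33lib.Conn.Descent

set_option autoImplicit false
set_option linter.unusedSectionVars false

noncomputable section

namespace Fermat.Agent.S33lib.Conn

open Fermat.Agent.S19lib Fermat.Agent.S33lib

local notation "Qb" => AlgebraicClosure ℚ
local notation "GQ" => (AlgebraicClosure ℚ ≃ₐ[ℚ] AlgebraicClosure ℚ)

variable {A : ValuationSubring Qb}
variable {J : Type} [AddCommGroup J] [DistribMulAction GQ J] {K : AddSubgroup J}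

/-- invariance under translation by `Γ''` -/
def IsInv (Γ'' : AddSubgroup J) (φ : K → Qb) : Prop :=
  ∀ x y : K, (y : J) - (x : J) ∈ Γ'' → φ y = φ x

/-- the difference operator `F ↦ F - F (· + g)` -/
def Dop (g : K) (F : K → Qb) : K → Qb := fun x => F x - F (x + g)

theorem Dop_mul (g : K) (c : Qb) (F : K → Qb) :
    Dop g (fun x => c * F x) = fun x => c * Dop g F x := by
  funext x
  simp only [Dop]
  ring

theorem IsInv.dop {Γ'' : AddSubgroup J} {F : K → Qb} (h : IsInv Γ'' F) (g : K) :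
    IsInv Γ'' (Dop g F) := by
  intro x y hxy
  simp only [Dop]
  rw [h x y hxy, h (x + g) (y + g) (by
    have : ((y + g : K) : J) - ((x + g : K) : J) = (y : J) - (x : J) := by
      push_cast
      abel
    rw [this]
    exact hxy)]

theorem IsInv.mul_left {Γ'' : AddSubgroup J} {F : K → Qb} (h : IsInv Γ'' F) (c : Qb) :
    IsInv Γ'' (fun x => c * F x) := by
  intro x y hxy
  simp only
  rw [h x y hxy]

/-- `Dφ` is equivariant when `φ` is equivariant and `Γ''`-invariant and `σ g - g ∈ Γ''` -/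
theorem isEqv_dop (hK : IStable A K) {Γ'' : AddSubgroup J} {g : K}
    (hg : ∀ σ ∈ IA A, σ • (g : J) - (g : J) ∈ Γ'') {φ : K → Qb} (hφ : IsEqv A K φ)
    (hinv : IsInv Γ'' φ) : IsEqv A K (Dop g φ) := by
  intro σ hσ x y hxy
  simp only [Dop]
  let z : K := ⟨σ • ((x + g : K) : J), hK σ hσ _ (x + g).2⟩
  have hz : φ z = σ (φ (x + g)) := hφ σ hσ (x + g) z rfl
  have hyz : φ z = φ (y + g) := by
    apply hinv
    have : (z : J) - ((y + g : K) : J) = σ • (g : J) - (g : J) := by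
      show σ • ((x + g : K) : J) - ((y + g : K) : J) = _
      push_cast
      rw [hxy, smul_add]
      abel
    rw [this]
    exact hg σ hσ
  rw [map_sub, ← hz, hyz, hφ σ hσ x y hxy]

theorem zero_mem_H {p : ℕ} (O : HopfOrder A p (A0 A) (IA A) K) : (fun _ => (0 : Qb)) ∈ O.H := by
  have h := O.smul_mem 0 (A0 A).zero_mem _ O.one_mem
  have h2 : (fun _ : K => (0 : Qb) * 1) = fun _ => (0 : Qb) := by
    funext x
    rw [zero_mul]
  rw [h2] at h
  exact h

/-- **Lemma K**: `Dφ = p θ` with `θ ∈ H` invariant -/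
theorem exists_dop_eq {p : ℕ} (hp : p.Prime) (hA : A.LiesOverPrime p) (hK : IStable A K)
    (O : HopfOrder A p (A0 A) (IA A) K) (hconn : IsConnectedOrder O)
    {Γ'' : AddSubgroup J} {g : K} (hg : ∀ σ ∈ IA A, σ • (g : J) - (g : J) ∈ Γ'')
    {φ : K → Qb} (hφ : φ ∈ O.H) (hinv : IsInv Γ'' φ) :
    ∃ θ ∈ O.H, IsInv Γ'' θ ∧ ∀ x, Dop g φ x = (p : Qb) * θ x := by
  obtain ⟨n, ψ, ψ', hψ, hψ', hsum⟩ := O.comul φ hφ
  have hp0 : ((p : ℕ) : Qb) ≠ 0 := by exact_mod_cast hp.ne_zero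
  have hD : ∀ x, Dop g φ x = ∑ i, (ψ' i 0 - ψ' i g) * ψ i x := by
    intro x
    simp only [Dop]
    have h0 := hsum x 0
    rw [add_zero] at h0
    rw [h0, hsum x g, ← Finset.sum_sub_distrib]
    refine Finset.sum_congr rfl fun i _ => ?_
    ring
  have hd : ∀ i, A.valuation (ψ' i 0 - ψ' i g) < 1 := by
    intro i
    rw [Valuation.map_sub_swap]
    exact hconn (ψ' i) (hψ' i) g
  have heqv : IsEqv A K (fun x => ∑ i, (ψ' i 0 - ψ' i g) * ψ i x) := by
    have h1 : (fun x => ∑ i, (ψ' i 0 - ψ' i g) * ψ i x) = Dop g φ := by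
      funext x
      exact (hD x).symm
    rw [h1]
    exact isEqv_dop hK hg (O.equivariant φ hφ) hinv
  obtain ⟨θ, hθ, hθeq⟩ := exists_eq_prime_mul hp hA hK O.H (zero_mem_H O) O.add_mem O.smul_mem
    O.equivariant n (Fin n) (Fintype.card_fin n) ψ (fun i => ψ' i 0 - ψ' i g) hψ hd heqv
  refine ⟨θ, hθ, ?_, fun x => (hD x).trans (hθeq x)⟩
  intro x y hxy
  have h1 := (hinv.dop g) x y hxy
  rw [hD x, hD y, hθeq x, hθeq y] at h1
  exact mul_left_cancel₀ hp0 h1

/-- iterating Lemma K -/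
theorem exists_iterate_dop_eq {p : ℕ} (hp : p.Prime) (hA : A.LiesOverPrime p) (hK : IStable A K)
    (O : HopfOrder A p (A0 A) (IA A) K) (hconn : IsConnectedOrder O)
    {Γ'' : AddSubgroup J} {g : K} (hg : ∀ σ ∈ IA A, σ • (g : J) - (g : J) ∈ Γ'')
    {φ : K → Qb} (hφ : φ ∈ O.H) (hinv : IsInv Γ'' φ) (k : ℕ) :
    ∃ θ ∈ O.H, IsInv Γ'' θ ∧ ∀ x, (Dop g)^[k] φ x = (p : Qb) ^ k * θ x := by
  induction k with
  | zero => exact ⟨φ, hφ, hinv, fun x => by simp⟩
  | succ k ih =>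
    obtain ⟨θ, hθ, hθinv, hθeq⟩ := ih
    obtain ⟨θ', hθ', hθ'inv, hθ'eq⟩ := exists_dop_eq hp hA hK O hconn hg hθ hθinv
    refine ⟨θ', hθ', hθ'inv, fun x => ?_⟩
    rw [Function.iterate_succ_apply']
    have h1 : (Dop g)^[k] φ = fun x => (p : Qb) ^ k * θ x := funext hθeq
    rw [h1, Dop_mul]
    simp only
    rw [hθ'eq x, pow_succ, mul_assoc]

/-- the twisted sum along the multiples of `g` -/
def Ssum (p : ℕ) (ζ : Qb) (g : K) (F : K → Qb) : Qb :=
  ∑ j ∈ Finset.range p, ζ ^ j * F (j • g)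

theorem Ssum_dop {p : ℕ} {ζ : Qb} (hζ : ζ ^ p = 1) (hζ0 : ζ ≠ 0) (g : K) (F : K → Qb)
    (hF : F (p • g) = F 0) : Ssum p ζ g (Dop g F) = (1 - ζ⁻¹) * Ssum p ζ g F := by
  simp only [Ssum, Dop]
  have h1 : ∑ j ∈ Finset.range p, ζ ^ j * F (j • g + g)
      = ζ⁻¹ * ∑ j ∈ Finset.range p, ζ ^ j * F (j • g) := by
    have h2 : ∀ j, ζ ^ j * F (j • g + g) = ζ⁻¹ * (ζ ^ (j + 1) * F ((j + 1) • g)) := by
      intro j
      rw [succ_nsmul, pow_succ]
      field_simp
    rw [Finset.sum_congr rfl fun j _ => h2 j, ← Finset.mul_sum]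
    congr 1
    have h3 := Finset.sum_range_succ' (fun j => ζ ^ j * F (j • g)) p
    have h4 := Finset.sum_range_succ (fun j => ζ ^ j * F (j • g)) p
    rw [h4] at h3
    simp only [pow_zero, zero_nsmul, one_mul, hζ, hF] at h3
    exact (add_right_cancel h3).symm
  simp only [mul_sub, Finset.sum_sub_distrib, h1]
  ring

theorem Ssum_iterate_dop {p : ℕ} {ζ : Qb} (hζ : ζ ^ p = 1) (hζ0 : ζ ≠ 0) {Γ'' : AddSubgroup J}
    (g : K) (hpg : p • (g : J) ∈ Γ'') (F : K → Qb) (hF : IsInv Γ'' F) (k : ℕ) :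
    Ssum p ζ g ((Dop g)^[k] F) = (1 - ζ⁻¹) ^ k * Ssum p ζ g F := by
  have hinv : ∀ k, IsInv Γ'' ((Dop g)^[k] F) := by
    intro k
    induction k with
    | zero => exact hF
    | succ k ih =>
      rw [Function.iterate_succ_apply']
      exact ih.dop g
  induction k with
  | zero => simp
  | succ k ih =>
    rw [Function.iterate_succ_apply', Ssum_dop hζ hζ0 g _ ?_, ih, pow_succ]
    · ring
    · apply hinv k
      have : ((p • g : K) : J) - ((0 : K) : J) = p • (g : J) := by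
        push_cast
        rw [sub_zero]
      rw [this]
      exact hpg

open Classical in
/-- the indicator function of `Γ''` on `K` -/
def ind (Γ'' : AddSubgroup J) : K → Qb := fun x => if (x : J) ∈ Γ'' then 1 else 0

theorem isEqv_ind {Γ'' : AddSubgroup J} (hΓ'' : IStable A Γ'') : IsEqv A K (ind (K := K) Γ'') := by
  intro σ hσ x y hxy
  have hiff : (y : J) ∈ Γ'' ↔ (x : J) ∈ Γ'' := by
    constructor
    · intro hy
      have h1 := hΓ'' σ⁻¹ ((IA A).inv_mem hσ) _ hy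
      rw [hxy, inv_smul_smul] at h1
      exact h1
    · intro hx
      rw [hxy]
      exact hΓ'' σ hσ _ hx
  simp only [ind]
  by_cases hx : (x : J) ∈ Γ''
  · rw [if_pos hx, if_pos (hiff.2 hx), map_one]
  · rw [if_neg hx, if_neg (fun h => hx (hiff.1 h)), map_zero]

theorem isInv_ind (Γ'' : AddSubgroup J) : IsInv Γ'' (ind (K := K) Γ'') := by
  intro x y hxy
  have hiff : (y : J) ∈ Γ'' ↔ (x : J) ∈ Γ'' := by
    constructor
    · intro hy
      have := Γ''.sub_mem hy hxy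
      rwa [sub_sub_cancel] at this
    · intro hx
      have := Γ''.add_mem hxy hx
      rwa [sub_add_cancel] at this
  simp only [ind]
  by_cases hx : (x : J) ∈ Γ''
  · rw [if_pos hx, if_pos (hiff.2 hx)]
  · rw [if_neg hx, if_neg (fun h => hx (hiff.1 h))]

/-- multiples `j g`, `0 < j < p`, are not in `Γ''` -/
theorem nsmul_not_mem {p : ℕ} (hp : p.Prime) {Γ'' : AddSubgroup J} {g : J} (hg : g ∉ Γ'')
    (hpg : p • g ∈ Γ'') {j : ℕ} (hj0 : j ≠ 0) (hjp : j < p) : j • g ∉ Γ'' := by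
  intro hj
  have hcop : Nat.Coprime j p := by
    rw [Nat.coprime_comm]
    exact (Nat.Prime.coprime_iff_not_dvd hp).2 fun hd =>
      absurd (Nat.le_of_dvd (Nat.pos_of_ne_zero hj0) hd) (not_le.2 hjp)
  have hic : IsCoprime (j : ℤ) (p : ℤ) := Nat.isCoprime_iff_coprime.2 hcop
  obtain ⟨a, b, hab⟩ := hic
  have h1 : g = a • (j • g) + b • (p • g) := by
    rw [← natCast_zsmul g j, ← natCast_zsmul g p, smul_smul, smul_smul, ← add_smul, hab, one_smul]
  apply hg
  rw [h1]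
  exact Γ''.add_mem (Γ''.zsmul_mem hj a) (Γ''.zsmul_mem hpg b)

theorem Ssum_ind {p : ℕ} (hp : p.Prime) (ζ : Qb) {Γ'' : AddSubgroup J} {g : K}
    (hg : (g : J) ∉ Γ'') (hpg : p • (g : J) ∈ Γ'') (c : Qb) :
    Ssum p ζ g (fun x => c * ind (K := K) Γ'' x) = c := by
  simp only [Ssum]
  rw [Finset.sum_eq_single 0]
  · simp only [pow_zero, zero_nsmul, one_mul, ind]
    rw [if_pos (by simpa using Γ''.zero_mem), mul_one]
  · intro j hj hj0
    have h1 : ((j • g : K) : J) ∉ Γ'' := by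
      push_cast
      exact nsmul_not_mem hp hg hpg hj0 (Finset.mem_range.1 hj)
    simp only [ind]
    rw [if_neg h1, mul_zero, mul_zero]
  · intro h
    exact absurd (Finset.mem_range.2 hp.pos) h

/-- **the core contradiction** -/
theorem false_of_nontrivial {p : ℕ} (hp : p.Prime) (hp2 : p ≠ 2) (hA : A.LiesOverPrime p)
    (hK : IStable A K) (O : HopfOrder A p (A0 A) (IA A) K) (hconn : IsConnectedOrder O)
    {Γ'' : AddSubgroup J} (hΓ'' : IStable A Γ'') {g : K}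
    (hg : (g : J) ∉ Γ'') (hpg : p • (g : J) ∈ Γ'')
    (hσg : ∀ σ ∈ IA A, σ • (g : J) - (g : J) ∈ Γ'') : False := by
  have hp0 : ((p : ℕ) : Qb) ≠ 0 := by exact_mod_cast hp.ne_zero
  haveI : NeZero p := ⟨hp.ne_zero⟩
  haveI : NeZero (p : Qb) := ⟨Nat.cast_ne_zero.mpr hp.ne_zero⟩
  obtain ⟨ζ, hζ⟩ := HasEnoughRootsOfUnity.exists_primitiveRoot Qb p
  have hζp : ζ ^ p = 1 := hζ.pow_eq_one
  have hζ0 : ζ ≠ 0 := by
    intro h
    rw [h, zero_pow hp.ne_zero] at hζp
    exact zero_ne_one hζp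
  have hζ1 : ζ ≠ 1 := hζ.ne_one hp.one_lt
  have hηp : ζ⁻¹ ^ p = 1 := by rw [inv_pow, hζp, inv_one]
  have hη1 : ζ⁻¹ ≠ 1 := fun h => hζ1 (inv_eq_one.1 h)
  have hζA : ζ ∈ A := Fermat.Agent.S19lib.G.mem_of_pow_eq_one (A := A) hp.pos hζp
  -- the starting function
  obtain ⟨m, hm⟩ := O.full (ind Γ'') (isEqv_ind hΓ'')
  have hφinv : IsInv Γ'' (fun x : K => ((p : ℕ) : Qb) ^ m * ind Γ'' x) :=
    (isInv_ind Γ'').mul_left _
  -- the valuations
  set vp := A.valuation ((p : ℕ) : Qb) with hvp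
  set π := A.valuation (1 - ζ⁻¹) with hπ
  have hvp1 : vp < 1 := by
    have := hA
    unfold ValuationSubring.LiesOverPrime at this
    rw [ValuationSubring.mem_nonunits_iff] at this
    exact this
  have hvp0 : 0 < vp := by
    rw [hvp]
    exact zero_lt_iff.2 ((Valuation.ne_zero_iff _).2 hp0)
  have hcyc : vp ≤ π ^ (p - 1) := valuation_prime_le_pow A hp hηp hη1
  have key : ∀ k : ℕ, π ^ k * vp ^ m ≤ vp ^ k := by
    intro k
    obtain ⟨θ, hθ, -, hθeq⟩ := exists_iterate_dop_eq hp hA hK O hconn hσg hm hφinv k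
    have h1 := Ssum_iterate_dop hζp hζ0 g hpg _ hφinv k
    rw [Ssum_ind hp ζ hg hpg] at h1
    have h2 : Ssum p ζ g ((Dop g)^[k] fun x : K => ((p : ℕ) : Qb) ^ m * ind Γ'' x)
        = ((p : ℕ) : Qb) ^ k * Ssum p ζ g θ := by
      simp only [Ssum]
      rw [Finset.mul_sum]
      refine Finset.sum_congr rfl fun j _ => ?_
      rw [hθeq]
      ring
    have h3 : A.valuation (Ssum p ζ g θ) ≤ 1 := by
      rw [A.valuation_le_one_iff]
      exact sum_mem fun j _ => A.mul_mem _ _ (pow_mem hζA j) (O.integral θ hθ _)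
    have h4 := congrArg A.valuation (h2.symm.trans h1)
    rw [map_mul, map_mul, map_pow, map_pow, map_pow] at h4
    rw [← h4]
    calc vp ^ k * A.valuation (Ssum p ζ g θ) ≤ vp ^ k * 1 := mul_le_mul' le_rfl h3
      _ = vp ^ k := mul_one _
  -- choose `k = (p - 1) (m + 1)`
  have h5 := key ((p - 1) * (m + 1))
  have h6 : vp ^ (m + 1) ≤ π ^ ((p - 1) * (m + 1)) := by
    rw [pow_mul]
    exact pow_le_pow_left' hcyc (m + 1)
  have h7 : vp ^ (m + 1 + m) ≤ vp ^ ((p - 1) * (m + 1)) := by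
    rw [pow_add]
    exact le_trans (mul_le_mul' h6 le_rfl) h5
  have h8 : (p - 1) * (m + 1) ≤ m + 1 + m :=
    (pow_le_pow_iff_right_of_lt_one₀ hvp0 hvp1).1 h7
  have hp3 : 3 ≤ p := by
    have := hp.two_le
    omega
  have h9 : 2 * (m + 1) ≤ (p - 1) * (m + 1) := Nat.mul_le_mul_right _ (by omega)
  omega

/-- **Conn**: a connected Hopf order over `A0` (`p` odd) has no non-zero subquotient with trivial
inertia action. -/
theorem connStmt : ConnStmt := by
  intro p hp hp2 A hA J _ _ K n hn hK O hconn Γ'' Γ' hle hΓ'K hΓ'' hΓ' htriv x hx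
  by_contra hx''
  -- the minimal `j` with `p^j x ∈ Γ''`
  have hex : ∃ j : ℕ, (p ^ j) • x ∈ Γ'' := ⟨n, by rw [hn x (hΓ'K hx)]; exact Γ''.zero_mem⟩
  classical
  set j₀ := Nat.find hex with hj₀
  have hj₀mem : (p ^ j₀) • x ∈ Γ'' := Nat.find_spec hex
  have hj₀pos : j₀ ≠ 0 := by
    intro h0
    rw [h0, pow_zero, one_smul] at hj₀mem
    exact hx'' hj₀mem
  obtain ⟨i, hi⟩ : ∃ i, j₀ = i + 1 := ⟨j₀ - 1, by omega⟩
  have hgK : (p ^ i) • x ∈ K := K.nsmul_mem (hΓ'K hx) _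
  let g : K := ⟨(p ^ i) • x, hgK⟩
  have hg : (g : J) ∉ Γ'' := by
    intro h
    have := Nat.find_min hex (m := i) (by omega)
    exact this h
  have hpg : p • (g : J) ∈ Γ'' := by
    show p • ((p ^ i) • x) ∈ Γ''
    rw [smul_smul, ← pow_succ', ← hi]
    exact hj₀mem
  have hσg : ∀ σ ∈ IA A, σ • (g : J) - (g : J) ∈ Γ'' := by
    intro σ hσ
    show σ • ((p ^ i) • x) - (p ^ i) • x ∈ Γ''
    rw [smul_comm σ (p ^ i) x, ← smul_sub]
    exact Γ''.nsmul_mem (htriv σ hσ x hx) _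
  exact false_of_nontrivial hp hp2 hA hK O hconn hΓ'' hg hpg hσg

end Fermat.Agent.S33lib.Conn

end
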