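/-
S33lib / Conn / Power (helper4): `NoTrivSubquotIn` passes to modules which embed equivariantly into
a finite power of `K`.

`M` an abelian group with operators `act σ`, `f j : M →+ J` (`j ∈ s`, a finite set) equivariant
additive maps.  If `Γ'' ≤ Γ' ≤ M` are inertia-stable, all `f j` map `Γ'` into `K`, the `f j` are
jointly injective on `Γ'` and inertia acts trivially on `Γ' / Γ''`, then `Γ' ≤ Γ''`.
-/
import Mathlib
import Fermat.Agent.S33lib.Iface

set_option autoImplicit false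
set_option linter.unusedSectionVars false

noncomputable section

namespace Fermat.Agent.S33lib.Conn

open Fermat.Agent.S19lib Fermat.Agent.S33lib

local notation "Qb" => AlgebraicClosure ℚ
local notation "GQ" => (AlgebraicClosure ℚ ≃ₐ[ℚ] AlgebraicClosure ℚ)

variable {A : ValuationSubring Qb}
variable {J : Type} [AddCommGroup J] [DistribMulAction GQ J] {K : AddSubgroup J}

/-- **closure of `NoTrivSubquotIn` under finite powers** -/
theorem noTrivSubquot_of_family (hK : NoTrivSubquotIn A K) {M : Type} [AddCommGroup M]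
    (act : GQ → M → M) {ι : Type} (f : ι → M →+ J)
    (hf : ∀ (j : ι) (σ : GQ) (m : M), f j (act σ m) = σ • f j m) (s : Finset ι) :
    ∀ Γ'' Γ' : AddSubgroup M, Γ'' ≤ Γ' →
      (∀ j ∈ s, ∀ m ∈ Γ', f j m ∈ K) →
      (∀ m ∈ Γ', (∀ j ∈ s, f j m = 0) → m = 0) →
      (∀ σ ∈ IA A, ∀ m ∈ Γ'', act σ m ∈ Γ'') → (∀ σ ∈ IA A, ∀ m ∈ Γ', act σ m ∈ Γ') →
      (∀ σ ∈ IA A, ∀ m ∈ Γ', act σ m - m ∈ Γ'') → Γ' ≤ Γ'' := by
  classical
  induction s using Finset.induction_on with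
  | empty =>
    intro Γ'' Γ' _ _ hinj _ _ _ m hm
    rw [hinj m hm (fun j hj => absurd hj (Finset.notMem_empty j))]
    exact Γ''.zero_mem
  | insert j₀ s hj₀ ih =>
    intro Γ'' Γ' hle hmem hinj hst'' hst' htriv
    -- the images under `f j₀`
    have himg : Γ'.map (f j₀) ≤ Γ''.map (f j₀) := by
      apply hK (Γ''.map (f j₀)) (Γ'.map (f j₀)) (AddSubgroup.map_mono hle)
      · rintro _ ⟨m, hm, rfl⟩
        exact hmem j₀ (Finset.mem_insert_self j₀ s) m hm
      · rintro σ hσ _ ⟨m, hm, rfl⟩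
        exact ⟨act σ m, hst'' σ hσ m hm, hf j₀ σ m⟩
      · rintro σ hσ _ ⟨m, hm, rfl⟩
        exact ⟨act σ m, hst' σ hσ m hm, hf j₀ σ m⟩
      · rintro σ hσ _ ⟨m, hm, rfl⟩
        refine ⟨act σ m - m, htriv σ hσ m hm, ?_⟩
        rw [map_sub, hf j₀ σ m]
    -- the kernels
    have hker : Γ' ⊓ (f j₀).ker ≤ Γ'' ⊓ (f j₀).ker := by
      apply ih (Γ'' ⊓ (f j₀).ker) (Γ' ⊓ (f j₀).ker) (inf_le_inf_right _ hle)
      · intro j hj m hm
        exact hmem j (Finset.mem_insert_of_mem hj) m hm.1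
      · intro m hm h0
        apply hinj m hm.1
        intro j hj
        rcases Finset.mem_insert.1 hj with rfl | hj
        · exact hm.2
        · exact h0 j hj
      · intro σ hσ m hm
        refine ⟨hst'' σ hσ m hm.1, ?_⟩
        show f j₀ (act σ m) = 0
        rw [hf j₀ σ m, show f j₀ m = 0 from hm.2, smul_zero]
      · intro σ hσ m hm
        refine ⟨hst' σ hσ m hm.1, ?_⟩
        show f j₀ (act σ m) = 0
        rw [hf j₀ σ m, show f j₀ m = 0 from hm.2, smul_zero]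
      · intro σ hσ m hm
        refine ⟨htriv σ hσ m hm.1, ?_⟩
        show f j₀ (act σ m - m) = 0
        rw [map_sub, hf j₀ σ m, show f j₀ m = 0 from hm.2, smul_zero, sub_zero]
    intro m hm
    obtain ⟨m'', hm'', heq⟩ := himg ⟨m, hm, rfl⟩
    have h1 : m - m'' ∈ Γ' ⊓ (f j₀).ker := by
      refine ⟨Γ'.sub_mem hm (hle hm''), ?_⟩
      show f j₀ (m - m'') = 0
      rw [map_sub, heq, sub_self]
    have h2 := (hker h1).1
    have h3 := Γ''.add_mem h2 hm''
    rwa [sub_add_cancel] at h3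

/-- **closure under quotients of subgroups of finite powers**: `π : M → M'` equivariant, `𝒦 ≤ M` the
subgroup of elements all of whose components `f j m` lie in `K`, the `f j` jointly injective on
`𝒦`.  Then subgroups of `π 𝒦` have no non-zero subquotient with trivial inertia action. -/
theorem noTrivSubquot_of_quotient_family (hK : NoTrivSubquotIn A K)
    (hKst : ∀ σ ∈ IA A, ∀ x ∈ K, σ • x ∈ K) {M M' : Type} [AddCommGroup M] [AddCommGroup M']
    (act : GQ → M → M) (act' : GQ → M' → M') (π : M →+ M')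
    (hπ : ∀ (σ : GQ) (m : M), π (act σ m) = act' σ (π m))
    {ι : Type} (f : ι → M →+ J)
    (hf : ∀ (j : ι) (σ : GQ) (m : M), f j (act σ m) = σ • f j m) (s : Finset ι)
    (hinj : ∀ m : M, (∀ j ∈ s, f j m ∈ K) → (∀ j ∈ s, f j m = 0) → m = 0)
    (Γ'' Γ' : AddSubgroup M') (hle : Γ'' ≤ Γ')
    (hΓ' : ∀ m' ∈ Γ', ∃ m : M, (∀ j ∈ s, f j m ∈ K) ∧ π m = m')
    (hst'' : ∀ σ ∈ IA A, ∀ m ∈ Γ'', act' σ m ∈ Γ'') (hst' : ∀ σ ∈ IA A, ∀ m ∈ Γ', act' σ m ∈ Γ')
    (htriv : ∀ σ ∈ IA A, ∀ m ∈ Γ', act' σ m - m ∈ Γ'') : Γ' ≤ Γ'' := by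
  classical
  -- the subgroup `𝒦`
  let KK : AddSubgroup M :=
    { carrier := {m | ∀ j ∈ s, f j m ∈ K}
      zero_mem' := fun j _ => by rw [map_zero]; exact K.zero_mem
      add_mem' := fun {a b} ha hb j hj => by rw [map_add]; exact K.add_mem (ha j hj) (hb j hj)
      neg_mem' := fun {a} ha j hj => by rw [map_neg]; exact K.neg_mem (ha j hj) }
  have hKK : ∀ m, m ∈ KK ↔ ∀ j ∈ s, f j m ∈ K := fun m => Iff.rfl
  have hKKst : ∀ σ ∈ IA A, ∀ m ∈ KK, act σ m ∈ KK := by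
    intro σ hσ m hm j hj
    rw [hf j σ m]
    exact hKst σ hσ _ (hm j hj)
  have key : KK ⊓ Γ'.comap π ≤ KK ⊓ Γ''.comap π := by
    apply noTrivSubquot_of_family hK act f hf s (KK ⊓ Γ''.comap π) (KK ⊓ Γ'.comap π)
      (inf_le_inf_left _ (AddSubgroup.comap_mono hle))
    · intro j hj m hm
      exact hm.1 j hj
    · intro m hm h0
      exact hinj m hm.1 h0
    · intro σ hσ m hm
      refine ⟨hKKst σ hσ m hm.1, ?_⟩
      show π (act σ m) ∈ Γ''
      rw [hπ]
      exact hst'' σ hσ _ hm.2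
    · intro σ hσ m hm
      refine ⟨hKKst σ hσ m hm.1, ?_⟩
      show π (act σ m) ∈ Γ'
      rw [hπ]
      exact hst' σ hσ _ hm.2
    · intro σ hσ m hm
      refine ⟨KK.sub_mem (hKKst σ hσ m hm.1) hm.1, ?_⟩
      show π (act σ m - m) ∈ Γ''
      rw [map_sub, hπ]
      exact htriv σ hσ _ hm.2
  intro m' hm'
  obtain ⟨m, hmK, rfl⟩ := hΓ' m' hm'
  exact (key ⟨hmK, hm'⟩).2

end Fermat.Agent.S33lib.Conn

end
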