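/-
S33lib / Conn / Lin2 (helper4): rank dichotomy for families of vectors in `O²`, `O` a domain.

A family `v i ∈ O²` either is killed by a non-zero row vector (`rank ≤ 1`), or has a non-zero
`2 × 2` minor `δ`, and then `δ • O² ⊆ span (v i)`.
-/
import Mathlib

set_option autoImplicit false

namespace Fermat.Agent.S33lib.Conn

/-- `δ • w ∈ span {a, b}` for the minor `δ = a₀ b₁ - a₁ b₀` -/
theorem minor_smul_mem_span {O : Type*} [CommRing O] (a b w : Fin 2 → O) :
    (a 0 * b 1 - a 1 * b 0) • w ∈ Submodule.span O ({a, b} : Set (Fin 2 → O)) := by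
  have h : (a 0 * b 1 - a 1 * b 0) • w
      = (w 0 * b 1 - w 1 * b 0) • a + (a 0 * w 1 - a 1 * w 0) • b := by
    funext k
    fin_cases k
    · simp only [Pi.smul_apply, Pi.add_apply, smul_eq_mul, Fin.zero_eta]
      ring
    · simp only [Pi.smul_apply, Pi.add_apply, smul_eq_mul, Fin.mk_one]
      ring
  rw [h]
  exact Submodule.add_mem _
    (Submodule.smul_mem _ _ (Submodule.subset_span (Set.mem_insert a {b})))
    (Submodule.smul_mem _ _ (Submodule.subset_span (Set.mem_insert_of_mem a rfl)))

/-- **rank dichotomy** in `O²` over a domain -/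
theorem exists_functional_or_minor {O : Type*} [CommRing O] [IsDomain O] {ι : Type*}
    (v : ι → Fin 2 → O) :
    (∃ l : Fin 2 → O, l ≠ 0 ∧ ∀ i, l 0 * v i 0 + l 1 * v i 1 = 0) ∨
      ∃ i j, v i 0 * v j 1 - v i 1 * v j 0 ≠ 0 := by
  classical
  by_cases hm : ∃ i j, v i 0 * v j 1 - v i 1 * v j 0 ≠ 0
  · exact Or.inr hm
  · left
    push Not at hm
    by_cases h0 : ∀ i, v i = 0
    · refine ⟨![1, 0], ?_, fun i => ?_⟩
      · intro h
        have := congrFun h 0
        simp at this
      · rw [h0 i]
        simp
    · push Not at h0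
      obtain ⟨i₀, hi₀⟩ := h0
      refine ⟨![v i₀ 1, - v i₀ 0], ?_, fun i => ?_⟩
      · intro h
        apply hi₀
        funext k
        fin_cases k
        · have := congrFun h 1
          simpa using this
        · have := congrFun h 0
          simpa using this
      · have := hm i i₀
        simp only [Matrix.cons_val_zero, Matrix.cons_val_one]
        linear_combination this

/-- in the second case, `δ • O² ⊆ span (range v)` -/
theorem minor_smul_mem_span_range {O : Type*} [CommRing O] {ι : Type*} (v : ι → Fin 2 → O)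
    (i j : ι) (w : Fin 2 → O) :
    (v i 0 * v j 1 - v i 1 * v j 0) • w ∈ Submodule.span O (Set.range v) := by
  refine Submodule.span_mono ?_ (minor_smul_mem_span (v i) (v j) w)
  rintro x hx
  rcases hx with rfl | hx
  · exact ⟨i, rfl⟩
  · rw [Set.mem_singleton_iff] at hx
    rw [hx]
    exact ⟨j, rfl⟩

end Fermat.Agent.S33lib.Conn
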