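/-
S33lib / Conn / Xfer (helper4): abstract transfer of the algebraic form of `(P)` along a pair of
maps `pull : J → J'` (additive), `push : J' → J` (additive, equivariant) with `push ∘ pull = d`, `d = p^c u`, `(u, p) = 1`.

If `J[p^(n+c)] → J[p^n]`, `x ↦ p^c x`, is onto and `K' ≤ J'` is inertia-stable, contains
`(σ-1)(τ-1) J'[p^(n+c)]` and has no non-zero subquotient with trivial inertia action, then
`K := push K' ∩ J[p^n]` has the same properties for `J[p^n]`.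
-/
import Mathlib
import Fermat.Agent.S33lib.Iface
import Fermat.Agent.S33lib.Conn.Power

set_option autoImplicit false
set_option linter.unusedSectionVars false

noncomputable section

namespace Fermat.Agent.S33lib.Conn

open Fermat.Agent.S19lib Fermat.Agent.S33lib

local notation "Qb" => AlgebraicClosure ℚ
local notation "GQ" => (AlgebraicClosure ℚ ≃ₐ[ℚ] AlgebraicClosure ℚ)

variable {A : ValuationSubring Qb}
variable {J : Type} [AddCommGroup J] [DistribMulAction GQ J]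
variable {J' : Type} [AddCommGroup J'] [DistribMulAction GQ J']

/-- `NoTrivSubquotIn` passes to subgroups -/
theorem noTrivSubquotIn_mono {K₁ K₂ : AddSubgroup J} (h : K₁ ≤ K₂) (hK : NoTrivSubquotIn A K₂) :
    NoTrivSubquotIn A K₁ :=
  fun Γ'' Γ' hle hΓ' h1 h2 h3 => hK Γ'' Γ' hle (hΓ'.trans h) h1 h2 h3

/-- `NoTrivSubquotIn` passes to equivariant images -/
theorem noTrivSubquotIn_map {K' : AddSubgroup J'} (hK' : NoTrivSubquotIn A K')
    (hK'st : ∀ σ ∈ IA A, ∀ x ∈ K', σ • x ∈ K') (push : J' →+ J)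
    (hpush : ∀ (σ : GQ) (x : J'), push (σ • x) = σ • push x) :
    NoTrivSubquotIn A (K'.map push) := by
  intro Γ'' Γ' hle hΓ' hst'' hst' htriv
  refine noTrivSubquot_of_quotient_family hK' hK'st (fun σ (m : J') => σ • m)
    (fun σ (m : J) => σ • m) push hpush (fun _ : Unit => AddMonoidHom.id J')
    (fun _ σ m => rfl) {()} ?_ Γ'' Γ' hle ?_ hst'' hst' htriv
  · intro m _ h0
    exact h0 () (Finset.mem_singleton_self _)
  · intro m' hm'
    obtain ⟨m, hm, rfl⟩ := hΓ' hm'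
    exact ⟨m, fun _ _ => hm, rfl⟩

/-- **abstract transfer** -/
theorem exists_filt_of_transfer {p : ℕ} (push : J' →+ J) (pull : J →+ J')
    (hpush : ∀ (σ : GQ) (x : J'), push (σ • x) = σ • push x)
    (d c u : ℕ) (hd : d = p ^ c * u) (hu : Nat.Coprime u p)
    (hpp : ∀ x : J, push (pull x) = d • x) (n : ℕ)
    (hdiv : ∀ x : J, p ^ n • x = 0 → ∃ x₁ : J, p ^ (n + c) • x₁ = 0 ∧ p ^ c • x₁ = x)
    (K' : AddSubgroup J') (hK'st : ∀ σ ∈ IA A, ∀ x ∈ K', σ • x ∈ K')
    (hP2' : ∀ σ ∈ IA A, ∀ τ ∈ IA A, ∀ y : J', p ^ (n + c) • y = 0 →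
      σ • (τ • y - y) - (τ • y - y) ∈ K')
    (hK' : NoTrivSubquotIn A K') :
    ∃ K : AddSubgroup J, (∀ x ∈ K, p ^ n • x = 0) ∧ (∀ σ ∈ IA A, ∀ x ∈ K, σ • x ∈ K) ∧
      (∀ σ ∈ IA A, ∀ τ ∈ IA A, ∀ x : J, p ^ n • x = 0 →
        σ • (τ • x - x) - (τ • x - x) ∈ K) ∧ NoTrivSubquotIn A K := by
  -- the `p^n`-torsion subgroup
  let Tn : AddSubgroup J :=
    { carrier := {x | p ^ n • x = 0}
      zero_mem' := smul_zero _
      add_mem' := fun {a b} ha hb => by
        show p ^ n • (a + b) = 0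
        rw [smul_add, ha, hb, add_zero]
      neg_mem' := fun {a} ha => by
        show p ^ n • (-a) = 0
        rw [smul_neg, ha, neg_zero] }
  have hTn : ∀ x, x ∈ Tn ↔ p ^ n • x = 0 := fun x => Iff.rfl
  have hTnst : ∀ (σ : GQ), ∀ x ∈ Tn, σ • x ∈ Tn := by
    intro σ x hx
    show p ^ n • (σ • x) = 0
    rw [smul_comm, (hTn x).1 hx, smul_zero]
  refine ⟨K'.map push ⊓ Tn, fun x hx => hx.2, ?_, ?_, ?_⟩
  · rintro σ hσ x ⟨⟨y, hy, rfl⟩, hx2⟩
    exact ⟨⟨σ • y, hK'st σ hσ y hy, hpush σ y⟩, hTnst σ _ hx2⟩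
  · intro σ hσ τ hτ x hx
    refine ⟨?_, ?_⟩
    · obtain ⟨x₁, hx₁, rfl⟩ := hdiv x hx
      -- an inverse of `u` modulo `p^(n+c)`
      have hcop : Nat.Coprime u (p ^ (n + c)) := Nat.Coprime.pow_right _ hu
      obtain ⟨a, b, hab⟩ : ∃ a b : ℤ, a * (u : ℤ) + b * ((p ^ (n + c) : ℕ) : ℤ) = 1 := by
        have := Nat.isCoprime_iff_coprime.2 hcop
        obtain ⟨a, b, h⟩ := this
        exact ⟨a, b, h⟩
      set y : J' := pull (a • x₁) with hy
      have hy0 : p ^ (n + c) • y = 0 := by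
        rw [hy, ← map_nsmul, smul_comm, hx₁, smul_zero, map_zero]
      have hpy : push y = p ^ c • x₁ := by
        rw [hy, hpp, hd, ← natCast_zsmul, smul_smul]
        have h1 : ((p ^ c * u : ℕ) : ℤ) * a = ((p ^ c : ℕ) : ℤ) * (1 - b * ((p ^ (n + c) : ℕ) : ℤ)) := by
          rw [← hab]
          push_cast
          ring
        rw [h1, mul_sub, mul_one, sub_smul, natCast_zsmul]
        have h2 : (((p ^ c : ℕ) : ℤ) * (b * ((p ^ (n + c) : ℕ) : ℤ))) • x₁ = 0 := by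
          rw [mul_comm, mul_assoc, mul_smul, mul_smul, natCast_zsmul, natCast_zsmul,
            smul_comm (p ^ (n + c)) (p ^ c) x₁, hx₁, smul_zero, smul_zero]
        rw [h2, sub_zero]
      refine ⟨σ • (τ • y - y) - (τ • y - y), hP2' σ hσ τ hτ y hy0, ?_⟩
      rw [map_sub, map_sub, hpush, map_sub, hpush, hpy]
    · exact Tn.sub_mem (hTnst σ _ (Tn.sub_mem (hTnst τ _ hx) hx)) (Tn.sub_mem (hTnst τ _ hx) hx)
  · exact noTrivSubquotIn_mono inf_le_left (noTrivSubquotIn_map hK' hK'st push hpush)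

end Fermat.Agent.S33lib.Conn

end
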