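/-
S33lib / Conn / XferPull (helper4): abstract transfer of the algebraic form of `(P)` along an
EQUIVARIANT additive map `pull : J → J'` whose kernel is killed by `d = p^c u`, `(u, p) = 1`
(no push-forward needed).

If `J[p^(n+c)] → J[p^n]`, `x ↦ p^c x`, is onto and `K' ≤ J'` is inertia-stable, contains
`(σ-1)(τ-1) J'[p^(n+c)]` and has no non-zero subquotient with trivial inertia action, then
`K := p^c (pull⁻¹ K' ∩ J[p^(n+c)])` has the same properties for `J[p^n]`.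
-/
import Mathlib
import Fermat.Agent.S33lib.Iface

set_option autoImplicit false
set_option linter.unusedSectionVars false

noncomputable section

namespace Fermat.Agent.S33lib.Conn

open Fermat.Agent.S19lib Fermat.Agent.S33lib

local notation "Qb" => AlgebraicClosure ℚ
local notation "GQ" => (AlgebraicClosure ℚ ≃ₐ[ℚ] AlgebraicClosure ℚ)

variable {A : ValuationSubring Qb}
variable {J : Type} [AddCommGroup J] [DistribMulAction GQ J]
variable {J' : Type} [AddCommGroup J'] [DistribMulAction GQ J']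

/-- an element killed by `p^c u` and by `p^(n+c)`, `(u, p) = 1`, is killed by `p^c` -/
theorem pow_smul_eq_zero_of_coprime {p c u n : ℕ} (hu : Nat.Coprime u p) {z : J}
    (h1 : (p ^ c * u) • z = 0) (h2 : p ^ (n + c) • z = 0) : p ^ c • z = 0 := by
  have hcop : Nat.Coprime u (p ^ n) := Nat.Coprime.pow_right _ hu
  obtain ⟨a, b, hab⟩ : ∃ a b : ℤ, a * (u : ℤ) + b * ((p ^ n : ℕ) : ℤ) = 1 := by
    obtain ⟨a, b, h⟩ := Nat.isCoprime_iff_coprime.2 hcop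
    exact ⟨a, b, h⟩
  have h1' : (((p ^ c * u : ℕ) : ℤ)) • z = 0 := by rw [natCast_zsmul]; exact h1
  have h2' : (((p ^ (n + c) : ℕ) : ℤ)) • z = 0 := by rw [natCast_zsmul]; exact h2
  have key : ((p ^ c : ℕ) : ℤ) = a * ((p ^ c * u : ℕ) : ℤ) + b * ((p ^ (n + c) : ℕ) : ℤ) := by
    have : ((p ^ c : ℕ) : ℤ) = ((p ^ c : ℕ) : ℤ) * (a * (u : ℤ) + b * ((p ^ n : ℕ) : ℤ)) := by
      rw [hab, mul_one]
    rw [this]
    push_cast
    ring
  rw [← natCast_zsmul, key, add_smul, mul_smul, mul_smul, h1', h2', smul_zero, smul_zero, add_zero]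

/-- **abstract transfer, pull-back only** -/
theorem exists_filt_of_pull {p : ℕ} (pull : J →+ J')
    (hpull : ∀ (σ : GQ) (x : J), pull (σ • x) = σ • pull x)
    (d c u : ℕ) (hd : d = p ^ c * u) (hu : Nat.Coprime u p)
    (hker : ∀ x : J, pull x = 0 → d • x = 0) (n : ℕ)
    (hdiv : ∀ x : J, p ^ n • x = 0 → ∃ x₁ : J, p ^ (n + c) • x₁ = 0 ∧ p ^ c • x₁ = x)
    (K' : AddSubgroup J') (hK'st : ∀ σ ∈ IA A, ∀ x ∈ K', σ • x ∈ K')
    (hP2' : ∀ σ ∈ IA A, ∀ τ ∈ IA A, ∀ y : J', p ^ (n + c) • y = 0 →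
      σ • (τ • y - y) - (τ • y - y) ∈ K')
    (hK' : NoTrivSubquotIn A K') :
    ∃ K : AddSubgroup J, (∀ x ∈ K, p ^ n • x = 0) ∧ (∀ σ ∈ IA A, ∀ x ∈ K, σ • x ∈ K) ∧
      (∀ σ ∈ IA A, ∀ τ ∈ IA A, ∀ x : J, p ^ n • x = 0 →
        σ • (τ • x - x) - (τ • x - x) ∈ K) ∧ NoTrivSubquotIn A K := by
  -- the `p^(n+c)`-torsion subgroup
  let T : AddSubgroup J :=
    { carrier := {x | p ^ (n + c) • x = 0}
      zero_mem' := smul_zero _
      add_mem' := fun {a b} ha hb => by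
        show p ^ (n + c) • (a + b) = 0
        rw [smul_add, ha, hb, add_zero]
      neg_mem' := fun {a} ha => by
        show p ^ (n + c) • (-a) = 0
        rw [smul_neg, ha, neg_zero] }
  have hT : ∀ x, x ∈ T ↔ p ^ (n + c) • x = 0 := fun x => Iff.rfl
  have hTst : ∀ (σ : GQ), ∀ x ∈ T, σ • x ∈ T := by
    intro σ x hx
    show p ^ (n + c) • (σ • x) = 0
    rw [smul_comm, (hT x).1 hx, smul_zero]
  -- multiplication by `p^c`
  let mulc : J →+ J := nsmulAddMonoidHom (p ^ c)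
  have hmulc : ∀ x, mulc x = p ^ c • x := fun x => rfl
  have hmulcσ : ∀ (σ : GQ) (x : J), mulc (σ • x) = σ • mulc x := by
    intro σ x
    rw [hmulc, hmulc, smul_comm]
  -- the subgroup `M`
  let M : AddSubgroup J := K'.comap pull ⊓ T
  have hM : ∀ x, x ∈ M ↔ pull x ∈ K' ∧ p ^ (n + c) • x = 0 := fun x => Iff.rfl
  have hMst : ∀ σ ∈ IA A, ∀ x ∈ M, σ • x ∈ M := by
    intro σ hσ x hx
    refine (hM _).2 ⟨?_, hTst σ x hx.2⟩
    rw [hpull]
    exact hK'st σ hσ _ ((hM x).1 hx).1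
  refine ⟨M.map mulc, ?_, ?_, ?_, ?_⟩
  · rintro x ⟨y, hy, rfl⟩
    rw [hmulc, ← mul_smul, ← pow_add]
    exact ((hM y).1 hy).2
  · rintro σ hσ x ⟨y, hy, rfl⟩
    exact ⟨σ • y, hMst σ hσ y hy, hmulcσ σ y⟩
  · intro σ hσ τ hτ x hx
    obtain ⟨x₁, hx₁, rfl⟩ := hdiv x hx
    refine ⟨σ • (τ • x₁ - x₁) - (τ • x₁ - x₁), (hM _).2 ⟨?_, ?_⟩, ?_⟩
    · rw [map_sub, hpull, map_sub, hpull]
      refine hP2' σ hσ τ hτ (pull x₁) ?_
      rw [← map_nsmul, hx₁, map_zero]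
    · have h1 : τ • x₁ - x₁ ∈ T := T.sub_mem (hTst τ _ hx₁) hx₁
      exact T.sub_mem (hTst σ _ h1) h1
    · rw [map_sub, map_sub, hmulcσ, map_sub, hmulcσ]
      rfl
  · intro Γ'' Γ' hle hΓ' hst'' hst' htriv
    -- the pull-backs along `mulc`
    have hmem : ∀ (Γ : AddSubgroup J) (y : J), y ∈ M ⊓ Γ.comap mulc ↔ y ∈ M ∧ mulc y ∈ Γ :=
      fun Γ y => Iff.rfl
    have hstab : ∀ Γ : AddSubgroup J, (∀ σ ∈ IA A, ∀ x ∈ Γ, σ • x ∈ Γ) →
        ∀ σ ∈ IA A, ∀ z ∈ (M ⊓ Γ.comap mulc).map pull, σ • z ∈ (M ⊓ Γ.comap mulc).map pull := by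
      rintro Γ hΓ σ hσ z ⟨y, hy, rfl⟩
      refine ⟨σ • y, (hmem Γ _).2 ⟨hMst σ hσ y hy.1, ?_⟩, hpull σ y⟩
      rw [hmulcσ]
      exact hΓ σ hσ _ hy.2
    have key : (M ⊓ Γ'.comap mulc).map pull ≤ (M ⊓ Γ''.comap mulc).map pull := by
      refine hK' _ _ (AddSubgroup.map_mono (inf_le_inf_left _ (AddSubgroup.comap_mono hle))) ?_
        (hstab Γ'' hst'') (hstab Γ' hst') ?_
      · rintro z ⟨y, hy, rfl⟩
        exact ((hM y).1 hy.1).1
      · rintro σ hσ z ⟨y, hy, rfl⟩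
        refine ⟨σ • y - y, (hmem Γ'' _).2 ⟨M.sub_mem (hMst σ hσ y hy.1) hy.1, ?_⟩, ?_⟩
        · rw [map_sub, hmulcσ]
          exact htriv σ hσ _ hy.2
        · rw [map_sub, hpull]
    intro x hx
    obtain ⟨y, hy, rfl⟩ := hΓ' hx
    obtain ⟨y'', hy'', hyy⟩ := key ⟨y, (hmem Γ' y).2 ⟨hy, hx⟩, rfl⟩
    -- `y - y''` is killed by `d` and by `p^(n+c)`, hence by `p^c`
    have h1 : (p ^ c * u) • (y - y'') = 0 := by
      rw [← hd]
      refine hker _ ?_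
      rw [map_sub, hyy, sub_self]
    have h2 : p ^ (n + c) • (y - y'') = 0 :=
      (hT _).1 (T.sub_mem ((hM y).1 hy).2 ((hM y'').1 hy''.1).2 |> fun h => h)
    have h3 : p ^ c • (y - y'') = 0 := pow_smul_eq_zero_of_coprime hu h1 h2
    have h4 : mulc y = mulc y'' := by
      rw [hmulc, hmulc, ← sub_eq_zero, ← smul_sub]
      exact h3
    rw [h4]
    exact hy''.2

end Fermat.Agent.S33lib.Conn

end
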