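/-
S33lib / Conn / XferMod (helper4): the transfer `XferPStmt` for the modular Jacobians.

The algebraic form of `(P)` descends from level `N ℓ` to level `N` along the degeneracy map
`α : X₀(N ℓ) → X₀(N)`: the pull-back `α^* : J₀(N) → J₀(N ℓ)` is `G_ℚ`-equivariant
(`S29lib/GH/HeckeGalois`), its kernel is killed by `deg α` (`LSb/Xfer/PushPull`), and the `p`-power
torsion of `J₀(N)` is `p`-divisible (`LSb/Xfer/Modular`); apply `Conn.exists_filt_of_pull`.
-/
import Mathlib
import Fermat.Agent.S33lib.Iface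
import Fermat.Agent.S33lib.Conn.XferPull
import Fermat.Agent.LSb.Xfer.Modular

set_option autoImplicit false
set_option linter.style.haveILetI false
set_option linter.unusedSectionVars false

noncomputable section

namespace Fermat.Agent.S33lib.Conn

open AlgebraicCurve ModularCurve AlgebraicCurve.SemilinearAut
open Fermat.Agent.S29lib Fermat.Agent.S37lib.HeckeInst Fermat.Agent.LSb.Xfer
open Fermat.Agent.S19lib Fermat.Agent.S33lib

local notation "Qb" => AlgebraicClosure ℚ
local notation "GQ" => (AlgebraicClosure ℚ ≃ₐ[ℚ] AlgebraicClosure ℚ)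

/-- `PFiltAlgStmt` only depends on the value of the level -/
theorem pFiltAlgStmt_congr {N N' : ℕ} [NeZero N] [NeZero N'] (h : N = N') {p : ℕ}
    (H : PFiltAlgStmt N p) : PFiltAlgStmt N' p := by
  subst h
  exact H

theorem mem_tors_natPow_iff {N : ℕ} [NeZero N] {p n : ℕ} (x : JZero N) :
    x ∈ tors N ((p : ℤ) ^ n) ↔ p ^ n • x = 0 := by
  rw [tors, Submodule.mem_toAddSubgroup, Submodule.mem_torsionBy_iff, ← natCast_zsmul]
  push_cast
  rfl

/-- **transfer, one step**: from level `N ℓ` to level `N` -/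
theorem pFiltAlgStmt_of_mul (N ℓ : ℕ) [NeZero N] [NeZero ℓ] [NeZero (N * ℓ)] {p : ℕ}
    (hp : p.Prime) (H : PFiltAlgStmt (N * ℓ) p) : PFiltAlgStmt N p := by
  intro A hA n
  haveI := hasPrincipalDivisors_FB (N * ℓ)
  have hfin := finiteAlong_alpha N ℓ
  have hd : finrankAlong Qb (heckeAlphaBar Qb N ℓ) ≠ 0 := by
    letI := algebraAlong (heckeAlphaBar Qb N ℓ)
    haveI : Module.Finite (FB N) (FB (N * ℓ)) := hfin
    exact (Module.finrank_pos (R := FB N) (M := FB (N * ℓ))).ne'
  obtain ⟨c, u, hu, hdd⟩ := Nat.exists_eq_pow_mul_and_not_dvd hd p hp.ne_one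
  have hcop : Nat.Coprime u p := ((Nat.Prime.coprime_iff_not_dvd hp).2 hu).symm
  -- the pull-back
  let pull : JZero N →+ JZero (N * ℓ) :=
    pic0PullbackAlong (heckeAlphaBar Qb N ℓ) (heckeAlphaBarIntegral N ℓ)
      (fundamentalIdentityAlong_alpha N ℓ)
  have hpull : ∀ (σ : GQ) (x : JZero N), pull (σ • x) = σ • pull x := fun σ x =>
    pic0PullbackAlong_smul (heckeAlphaBar Qb N ℓ) (heckeAlphaBarIntegral N ℓ)
      (fundamentalIdentityAlong_alpha N ℓ) (GH.intertwines_alpha N ℓ σ) x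
  have hker : ∀ x : JZero N, pull x = 0 → finrankAlong Qb (heckeAlphaBar Qb N ℓ) • x = 0 := by
    intro x hx
    have := finrankAlong_smul_eq_zero_of_pullback_eq_zero (heckeAlphaBar Qb N ℓ)
      (heckeAlphaBarIntegral N ℓ) (fundamentalIdentityAlong_alpha N ℓ) hfin
      (normFormulaAlong_alpha N ℓ) (GH.deg_ne_zero_FB N) hx
    rw [natCast_zsmul] at this
    exact this
  have hdiv : ∀ x : JZero N, p ^ n • x = 0 →
      ∃ x₁ : JZero N, p ^ (n + c) • x₁ = 0 ∧ p ^ c • x₁ = x := by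
    intro x hx
    obtain ⟨y, hy0, hy⟩ := exists_pow_smul_eq (M := JZero N) (p := p)
      (fun k x hx => exists_smul_eq hp k x hx) c n x (by rw [natCast_zsmul]; exact hx)
    rw [natCast_zsmul] at hy0 hy
    exact ⟨y, hy0, hy⟩
  obtain ⟨K', hK'le, hK'st, hP2', hK'⟩ := H A hA (n + c)
  obtain ⟨K, h1, h2, h3, h4⟩ := exists_filt_of_pull (A := A) pull hpull _ c u hdd hcop hker n hdiv
    K' hK'st (fun σ hσ τ hτ y hy => hP2' σ hσ τ hτ y ((mem_tors_natPow_iff y).2 hy)) hK'
  exact ⟨K, fun x hx => (mem_tors_natPow_iff x).2 (h1 x hx), h2,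
    fun σ hσ τ hτ x hx => h3 σ hσ τ hτ x ((mem_tors_natPow_iff x).1 hx), h4⟩

/-- **Transfer** (for `p = 3`): the algebraic form of `(P)` descends from level `4 N` to level
`N`. -/
theorem xferPStmt : XferPStmt := by
  intro N _ _ p hp _ H
  haveI : NeZero (N * 4) := ⟨Nat.mul_ne_zero (NeZero.ne N) (by norm_num)⟩
  exact pFiltAlgStmt_of_mul N 4 hp (pFiltAlgStmt_congr (Nat.mul_comm 4 N) H)

end Fermat.Agent.S33lib.Conn

end
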